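/-
S44 / DEPTH / instance, block GL, leaf GL-2: `IsKum` over `ℚ̄` implies `HorDiv` over a generic
subfield `K` of `ℚ̄` (the places of `F_K` are unramified in `FN`).
Copy of `BAD/Bridge/HorDiv.lean` with the inertia field replaced by `K`.
-/
import Fermat.Agent.S44.Depth.Inst.Defs
import Fermat.Agent.BAD.Bridge.Span
import Fermat.Agent.BAD.Bridge.Unram
import Fermat.Agent.S18.Descent.Horizontal
import Fermat.Agent.S18.Descent.FF1
import Fermat.Agent.S24.Export.Ramification

set_option autoImplicit false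

noncomputable section

namespace Fermat.Agent.S44.Depth.Inst

open ModularCurve AlgebraicCurve Fermat.Agent.S24 Fermat.Agent.GAL Fermat.Agent.S44.X
  Fermat.Agent.Lib.InertiaField Fermat.Agent.S18.Descent Fermat.Agent.BAD.Bridge
  Fermat.Agent.S28.Export Fermat.Agent.S36.BP Fermat.Agent.BAD.LevelQ.Mod
open Fermat.Agent.S18 (IsUnif)
open Fermat.Agent.S24.FF

variable (K : Type*) [Field K] [Algebra ℚ K] [Algebra K S44.Qb] (N : ℕ)

theorem glHorDiv_isIntegral [Algebra.IsAlgebraic K S44.Qb] :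
    (algebraMap K S44.Qb).IsIntegral := by
  intro c
  exact (Algebra.IsAlgebraic.isAlgebraic (R := K) c).isIntegral

theorem glHorDiv_bcK_algebraMap (c : K) :
    bcK K N (algebraMap K (FK K N) c) = algebraMap Kbar (FN N) (algebraMap K S44.Qb c) :=
  baseChangeMap_algebraMap _ c

/-- `FN N` is spanned over `ℚ̄` by the image of `FK K N`. -/
theorem glHorDiv_span [Algebra.IsAlgebraic K S44.Qb] :
    @Submodule.span Kbar (FN N) _ _ Algebra.toModule (Set.range (bcK K N) : Set (FN N)) = ⊤ := by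
  rw [eq_top_iff]
  rintro ⟨x, hx⟩ -
  have h := mem_span_of_mem_laurentBaseChange (L := K) (L' := S44.Qb)
    (modularFunctionFieldFull N) hx
  have key : ∀ z ∈ Submodule.span S44.Qb ((coeffMap (algebraMap K S44.Qb)) ''
      (laurentBaseChange K (modularFunctionFieldFull N) : Set (LaurentSeries K))),
      ∃ y : FN N, (y : LaurentSeries Kbar) = z ∧
        y ∈ @Submodule.span Kbar (FN N) _ _ Algebra.toModule
          (Set.range (bcK K N) : Set (FN N)) := by
    intro z hz
    induction hz using Submodule.span_induction with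
    | mem z hz =>
      obtain ⟨t, ht, rfl⟩ := hz
      exact ⟨bcK K N ⟨t, ht⟩, rfl, Submodule.subset_span ⟨_, rfl⟩⟩
    | zero => exact ⟨0, rfl, zero_mem _⟩
    | add z z' _ _ hz hz' =>
      obtain ⟨y, rfl, hy⟩ := hz
      obtain ⟨y', rfl, hy'⟩ := hz'
      exact ⟨y + y', rfl, add_mem hy hy'⟩
    | smul a z _ hz =>
      obtain ⟨y, rfl, hy⟩ := hz
      refine ⟨algebraMap Kbar (FN N) a * y, ?_, ?_⟩
      · rw [span_smul_eq]
        rfl
      · rw [← Algebra.smul_def]
        exact Submodule.smul_mem _ a hy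
  obtain ⟨y, hyx, hy⟩ := key x h
  have : y = ⟨x, hx⟩ := Subtype.ext hyx
  rw [← this]
  exact hy

/-- The function field of `X₀(N)` over `K` is a function field in one variable. -/
theorem glHorDiv_isFF1 [NeZero N] : IsFF1 K (FK K N) :=
  haveI : IsFF1 (AlgebraicClosure ℚ)
      (laurentBaseChange (AlgebraicClosure ℚ) (modularFunctionFieldFull N)) :=
    S24.Export.isFF1 N
  isFF1_of_baseChange (L := K) (L' := AlgebraicClosure ℚ) (finite_divisorExpansions N) rfl

/-- GL-2 -/
theorem horDiv_of_isKum [NeZero N] [Algebra.IsAlgebraic K S44.Qb] (n : ℕ) (u : FK K N)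
    (hu0 : u ≠ 0) (hu : E.IsKum N n (bcK K N u)) : HorDiv K n u := by
  have : IsFF1 Kbar (FN N) := S24.Export.isFF1 N
  have : IsFF1 K (FK K N) := glHorDiv_isFF1 K N
  have : CharZero K := algebraRat.charZero K
  have hplaces : ∀ w : Place K (FK K N), (n : ℤ) ∣ w.ord u := by
    intro w
    obtain ⟨v, hv⟩ := exists_placeOver (algebraMap K S44.Qb) (bcK K N)
      (fun a => glHorDiv_bcK_algebraMap K N a) (glHorDiv_isIntegral K) w
    rw [← PlaceOver.ord_eq_of_span (algebraMap K S44.Qb) (bcK K N)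
      (fun a => glHorDiv_bcK_algebraMap K N a) (glHorDiv_isIntegral K) (glHorDiv_span K N) hv u]
    exact hu v
  intro W hW
  obtain ⟨t, ht, h1, h2⟩ := divisibleDivVS_of_places n u hu0 hplaces W hW
  refine ⟨t, ht, le_antisymm ((W.valuation_le_one_iff _).2 h1) ?_⟩
  have h3 := (W.valuation_le_one_iff _).2 h2
  rw [map_inv₀] at h3
  have hne : u * t ^ n ≠ 0 := mul_ne_zero hu0 (pow_ne_zero n ht)
  exact (inv_le_one₀ (zero_lt_iff.2 ((map_ne_zero _).2 hne))).1 h3

end Fermat.Agent.S44.Depth.Inst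

end
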