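/-
S44 / DEPTH, the instance, block GL (function field glue), nodes GL-1, GL-4, GL-6, GL-9
(helper204): models over a subfield of the constants, and compatibility of the base change of
the constants with the action of automorphisms on the coefficients.
-/
import Fermat.Agent.S44.Depth.Inst.Defs
import Fermat.Agent.GAL.KLLevel
import Fermat.Agent.BAD.Bridge.Span

set_option autoImplicit false
set_option linter.unusedSectionVars false

noncomputable section

namespace Fermat.Agent.S44.Depth.Inst

open ModularCurve AlgebraicCurve Fermat.Agent.S24 Fermat.Agent.GAL Fermat.Agent.S44.X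
  Fermat.Agent.Lib.InertiaField Fermat.Agent.S18.Descent Fermat.Agent.BAD.Bridge
  Fermat.Agent.S28.Export Fermat.Agent.S36.BP Fermat.Agent.BAD.LevelQ.Mod
open Fermat.Agent.S18 (IsUnif)

section Glue

variable (K K' : Type*) [Field K] [Field K'] [Algebra ℚ K] [Algebra ℚ K'] [Algebra K S44.Qb]
  [Algebra K' S44.Qb] [Algebra K K'] [IsScalarTower K K' S44.Qb] (N : ℕ)

/-- a series over `ℚ̄` all of whose coefficients come from `K`, as a series over `K` -/
private def glLift (x : LaurentSeries S44.Qb)
    (hx : ∀ k : ℤ, x.coeff k ∈ Set.range (algebraMap K S44.Qb)) : LaurentSeries K where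
  coeff k := (hx k).choose
  isPWO_support' := x.isPWO_support.mono fun k hk => by
    simp only [Function.mem_support, ne_eq] at hk
    simp only [HahnSeries.mem_support, ne_eq]
    intro h0
    apply hk
    have h1 := (hx k).choose_spec
    exact (algebraMap K S44.Qb).injective (by rw [h1, h0, map_zero])

private theorem coeffMap_glLift (x : LaurentSeries S44.Qb)
    (hx : ∀ k : ℤ, x.coeff k ∈ Set.range (algebraMap K S44.Qb)) :
    coeffMap (algebraMap K S44.Qb) (glLift K x hx) = x := by
  ext k
  rw [coeffMap_coeff]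
  exact (hx k).choose_spec

/-- GL-1 -/
theorem exists_model [Algebra.IsAlgebraic K S44.Qb] (y : FN N)
    (hy : ∀ k : ℤ, (y : LaurentSeries Kbar).coeff k ∈ Set.range (algebraMap K S44.Qb)) :
    ∃ y' : FK K N, bcK K N y' = y := by
  refine ⟨⟨glLift K (y : LaurentSeries Kbar) hy, ?_⟩, ?_⟩
  · apply mem_laurentBaseChange_of_coeffMap_mem (L' := S44.Qb)
    rw [coeffMap_glLift]
    exact y.2
  · apply Subtype.ext
    rw [coe_bcK]
    exact coeffMap_glLift K _ hy

/-- GL-4 -/
theorem bcK_gal (τK : K ≃+* K) (τ : S44.GQ)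
    (h : ∀ z : K, algebraMap K S44.Qb (τK z) = τ (algebraMap K S44.Qb z)) (f : FK K N) :
    bcK K N (gal τK N f) = E.galF N τ (bcK K N f) := by
  apply Subtype.ext
  rw [coe_bcK, coe_gal, E.coe_galF, coe_bcK]
  ext k
  simp only [coeffMap_coeff]
  exact h _

/-- GL-6 -/
theorem bcK_baseChangeMap (φ : K →+* K')
    (hφ : ∀ z : K, algebraMap K' S44.Qb (φ z) = algebraMap K S44.Qb z) (f : FK K N) :
    bcK K' N (baseChangeMap (modularFunctionFieldFull N) φ f) = bcK K N f := by
  apply Subtype.ext
  rw [coe_bcK, coe_bcK, coe_baseChangeMap]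
  ext k
  simp only [coeffMap_coeff]
  exact hφ _

/-- GL-9 -/
theorem gal_baseChangeMap (τ : K' ≃+* K') (φ : K →+* K') (h : ∀ z : K, τ (φ z) = φ z)
    (f : FK K N) :
    gal τ N (baseChangeMap (modularFunctionFieldFull N) φ f) =
      baseChangeMap (modularFunctionFieldFull N) φ f := by
  apply Subtype.ext
  rw [coe_gal, coe_baseChangeMap]
  ext k
  simp only [coeffMap_coeff]
  exact h _

end Glue

end Fermat.Agent.S44.Depth.Inst

end
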