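/-
S44 / DEPTH (architect helper219), the instance, block GL, node GL-3 (task 3179, owner helper169):
descent of `n`-th powers for a generic field of constants `K ⊆ ℚ̄`.
-/
import Fermat.Agent.S44.Depth.Inst.Defs
import Fermat.Agent.BAD.Bridge.PowDesc

set_option autoImplicit false

noncomputable section

namespace Fermat.Agent.S44.Depth.Inst

open ModularCurve AlgebraicCurve Fermat.Agent.S24 Fermat.Agent.GAL Fermat.Agent.S44.X
  Fermat.Agent.Lib.InertiaField Fermat.Agent.S18.Descent Fermat.Agent.BAD.Bridge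
  Fermat.Agent.S28.Export Fermat.Agent.S36.BP Fermat.Agent.BAD.LevelQ.Mod
open Fermat.Agent.S18 (IsUnif)

section Glue

variable (K K' : Type*) [Field K] [Field K'] [Algebra ℚ K] [Algebra ℚ K'] [Algebra K S44.Qb]
  [Algebra K' S44.Qb] [Algebra K K'] [IsScalarTower K K' S44.Qb] (N : ℕ)

/-- GL-3 -/
theorem exists_const_mul_pow [Algebra.IsAlgebraic K S44.Qb] (n : ℕ) (hn : n ≠ 0) (y : FK K N)
    (hy : y ≠ 0) (v : FN N) (hv : bcK K N y = v ^ n) :
    ∃ (c : K) (g : FK K N), c ≠ 0 ∧ g ≠ 0 ∧ y = algebraMap K (FK K N) c * g ^ n := by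
  have hy' : (y : LaurentSeries K) ≠ 0 := fun h => hy (Subtype.ext h)
  have hv' : coeffMap (algebraMap K S44.Qb) (y : LaurentSeries K)
      = (v : LaurentSeries Kbar) ^ n := by
    rw [← coe_bcK, hv]
    rfl
  have : CharZero K := algebraRat.charZero K
  obtain ⟨c, r, hc, hr0, hyr, hr⟩ := PowDesc_series (algebraMap K S44.Qb) n hn _ hy' _ hv'
  have hmem : r ∈ laurentBaseChange K (modularFunctionFieldFull N) := by
    apply mem_laurentBaseChange_of_coeffMap_mem (L' := S44.Qb)
    rw [hr, HahnSeries.C_apply, ← algebraMap_laurentSeries_eq_single]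
    exact mul_mem ((laurentBaseChange S44.Qb (modularFunctionFieldFull N)).algebraMap_mem _) v.2
  refine ⟨c, ⟨r, hmem⟩, hc, fun h => hr0 (congrArg Subtype.val h), Subtype.ext ?_⟩
  rw [hyr, HahnSeries.C_apply, ← algebraMap_laurentSeries_eq_single]
  rfl

end Glue

end Fermat.Agent.S44.Depth.Inst

end
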