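/-
S44 / DEPTH (architect helper219), THE INSTANCE, block GL, node GL-5: `spanF`:
`F_{K'} = ∑_{i<e} F_K ϖ^i` as soon as `K' = ∑_{i<e} K ϖ^i`.
Proof: helper251.
-/
import Fermat.Agent.S44.Depth.Inst.Defs
import Fermat.Agent.BAD.Bridge.Span

set_option autoImplicit false

noncomputable section

namespace Fermat.Agent.S44.Depth.Inst

open ModularCurve AlgebraicCurve Fermat.Agent.S24 Fermat.Agent.GAL Fermat.Agent.S44.X
  Fermat.Agent.Lib.InertiaField Fermat.Agent.S18.Descent Fermat.Agent.BAD.Bridge
  Fermat.Agent.S28.Export Fermat.Agent.S36.BP Fermat.Agent.BAD.LevelQ.Mod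
open Fermat.Agent.S18 (IsUnif)

section Glue

variable (K K' : Type*) [Field K] [Field K'] [Algebra ℚ K] [Algebra ℚ K'] [Algebra K S44.Qb]
  [Algebra K' S44.Qb] [Algebra K K'] [IsScalarTower K K' S44.Qb] (N : ℕ)

/-- GL-5 -/
theorem spanF [Algebra.IsAlgebraic K K'] (ϖ : K') (e : ℕ)
    (h : ∀ z : K', ∃ c : ℕ → K, z = esum ϖ e c) :
    letI := algFK K K' N
    ∀ z : FK K' N, ∃ c : ℕ → FK K N, z = esum (algebraMap K' (FK K' N) ϖ) e c := by
  letI := algFK K K' N
  have key : ∀ x ∈ Submodule.span K' ((coeffMap (algebraMap K K')) ''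
      (laurentBaseChange K (modularFunctionFieldFull N) : Set (LaurentSeries K))),
      ∃ c : ℕ → FK K N,
        x = ((esum (algebraMap K' (FK K' N) ϖ) e c : FK K' N) : LaurentSeries K') := by
    intro x hx
    induction hx using Submodule.closure_induction with
    | zero =>
      refine ⟨fun _ => 0, ?_⟩
      simp [esum]
    | add x y _ _ hx hy =>
      obtain ⟨c, rfl⟩ := hx
      obtain ⟨d, rfl⟩ := hy
      refine ⟨fun i => c i + d i, ?_⟩
      rw [← AddMemClass.coe_add]
      congr 1
      simp only [esum, map_add, add_mul, Finset.sum_add_distrib]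
    | smul_mem a x hx =>
      obtain ⟨f, hf, rfl⟩ := hx
      obtain ⟨c, hc⟩ := h a
      refine ⟨fun i => algebraMap K (FK K N) (c i) * ⟨f, hf⟩, ?_⟩
      have h1 : a • coeffMap (algebraMap K K') f =
          ((algebraMap K' (FK K' N) a * upF K K' N ⟨f, hf⟩ : FK K' N) : LaurentSeries K') := by
        rw [span_smul_eq]
        rfl
      rw [h1]
      congr 1
      have h2 : ∀ t : FK K N, algebraMap (FK K N) (FK K' N) t = upF K K' N t := fun _ => rfl
      have h3 : ∀ t : K, upF K K' N (algebraMap K (FK K N) t) =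
          algebraMap K' (FK K' N) (algebraMap K K' t) := fun t => baseChangeMap_algebraMap _ t
      rw [hc]
      simp only [esum, map_sum, map_mul, map_pow, h2, h3, Finset.sum_mul]
      refine Finset.sum_congr rfl fun i _ => ?_
      ring
  intro z
  obtain ⟨c, hc⟩ := key _ (mem_span_of_mem_laurentBaseChange (L := K) (L' := K')
    (modularFunctionFieldFull N) z.2)
  exact ⟨c, Subtype.ext hc⟩

end Glue

end Fermat.Agent.S44.Depth.Inst

end
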