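/-
S44 / DEPTH (architect helper219), the instance, block GL: nodes GL-7 (`exists_isGauss`) and
GL-8 (`ext_of_isGauss`): the Gauss valuation ring of `FK K N`.
-/
import Fermat.Agent.S44.Depth.Inst.Defs
import Fermat.Agent.S28.Export.Good
import Fermat.Agent.GAL.E.Scaling

set_option autoImplicit false

noncomputable section

namespace Fermat.Agent.S44.Depth.Inst

open ModularCurve AlgebraicCurve Fermat.Agent.S24 Fermat.Agent.GAL Fermat.Agent.S44.X
  Fermat.Agent.Lib.InertiaField Fermat.Agent.S18.Descent Fermat.Agent.BAD.Bridge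
  Fermat.Agent.S28.Export

/-- The function field `FN N` is Gauss-good. -/
theorem Gauss_isGood (A : ValuationSubring S44.Qb) {p : ℕ} (hp : p.Prime)
    (hA : A.LiesOverPrime p) (N : ℕ) : IsGood A (modularFunctionFieldBar N) := by
  intro f hf hf0
  have hu : (⟨f, hf⟩ : FN N) ≠ 0 := fun h => hf0 (congrArg Subtype.val h)
  obtain ⟨c, x, y, hx, hy, hc, hrx, hry, huxy⟩ := E.exists_scaling A p hp hA N ⟨f, hf⟩ hu
  have h1 : Red A (E.incl A x / E.incl A y) (E.red A x / E.red A y) :=
    (red_iota x).div (red_iota y) hry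
  refine ⟨c⁻¹, inv_ne_zero hc, E.red A x / E.red A y, div_ne_zero hrx hry, ?_⟩
  have e : f = c • (E.incl A x / E.incl A y) := by
    have := congrArg (Subtype.val) huxy
    rw [smul_eq_C_mul, ← E.scaling_algebraMap]
    exact this
  rw [e, smul_smul, inv_mul_cancel₀ hc, one_smul]
  exact h1

section Glue

variable (K K' : Type*) [Field K] [Field K'] [Algebra ℚ K] [Algebra ℚ K'] [Algebra K S44.Qb]
  [Algebra K' S44.Qb] [Algebra K K'] [IsScalarTower K K' S44.Qb] (N : ℕ)

/-- GL-7 -/
theorem exists_isGauss (A : ValuationSubring S44.Qb) {p : ℕ} (hp : p.Prime)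
    (hA : A.LiesOverPrime p) : ∃ V : ValuationSubring (FK K N), IsGauss A V :=
  ⟨(gaussRing A (modularFunctionFieldBar N) (Gauss_isGood A hp hA N)).comap (bcK K N),
    fun _ => Iff.rfl⟩

theorem Gauss_bcK_upF (z : FK K N) : bcK K' N (upF K K' N z) = bcK K N z := by
  apply Subtype.ext
  rw [coe_bcK, coe_bcK]
  show coeffMap (algebraMap K' S44.Qb) (coeffMap (algebraMap K K') (z : LaurentSeries K)) = _
  rw [coeffMap_coeffMap]
  exact coeffMap_congr (IsScalarTower.algebraMap_eq K K' S44.Qb).symm _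

/-- GL-8 -/
theorem ext_of_isGauss (A : ValuationSubring S44.Qb) {V : ValuationSubring (FK K N)}
    {V' : ValuationSubring (FK K' N)} (hV : IsGauss A V) (hV' : IsGauss A V') :
    letI := algFK K K' N
    Ext V V' := by
  intro z
  show upF K K' N z ∈ V' ↔ z ∈ V
  rw [hV' _, hV _, Gauss_bcK_upF]

end Glue

end Fermat.Agent.S44.Depth.Inst

end
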